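import Fermat.Agent.GaloisReps.CoeffExt
import Fermat.Agent.RT.Algebra.Support

/-!
# Coefficients for the patching argument

A complete discrete valuation ring over `ℤ_[p]` with a primitive `p`-th root of unity, whose
residue field contains the roots of all quadratic polynomials over `ZMod p`, inside `ℂ_[p]`.
-/

set_option autoImplicit false
set_option linter.style.haveILetI false

noncomputable section

namespace Fermat.Agent.RT.Assembly

open IsLocalRing Polynomial Fermat.Agent.RT.Germ Fermat.Agent.RT.Algebra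

/-- A quadratic polynomial over `ZMod p` has a root in every field of characteristic `p` with a
primitive root of unity of order `p ^ 2 - 1`. -/
theorem exists_root_quadratic {p : ℕ} [Fact p.Prime] {k : Type*} [Field k] [CharP k p] {ω : k}
    (hω : IsPrimitiveRoot ω (p ^ 2 - 1)) (f : (ZMod p)[X]) (hf : f.natDegree = 2) :
    ∃ x : k, (f.map (ZMod.castHom dvd_rfl k)).IsRoot x := by
  classical
  have hp : p.Prime := Fact.out
  have hf0 : f ≠ 0 := fun h => by rw [h, natDegree_zero] at hf; omega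
  obtain ⟨g, hg, hgf⟩ := exists_irreducible_of_natDegree_pos (f := f) (by omega)
  set φ := ZMod.castHom (dvd_refl p) k
  have hgd : g ∣ X ^ p ^ 2 - X := by
    have h := natDegree_le_of_dvd hgf hf0
    have h1 := hg.natDegree_pos
    refine (by simpa using (hg.natDegree_dvd_iff_dvd_X_pow_card_pow_sub_X (n := 2)).1 :
      g.natDegree ∣ 2 → g ∣ X ^ p ^ 2 - X) ?_
    rcases (by omega : g.natDegree = 1 ∨ g.natDegree = 2) with h | h <;> simp [h]
  -- `X ^ p ^ 2 - X` splits in `k`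
  have h4 : 1 ≤ p ^ 2 := Nat.one_le_pow _ _ hp.pos
  have hsplit : (X * (X ^ (p ^ 2 - 1) - 1) : k[X]).Splits :=
    Splits.X.mul (X_pow_sub_one_splits hω)
  rw [mul_sub, ← pow_succ', Nat.sub_add_cancel h4, mul_one] at hsplit
  have hne := FiniteField.X_pow_card_pow_sub_X_ne_zero k (n := 2) two_ne_zero hp.one_lt
  obtain ⟨x, hx⟩ := (hsplit.of_dvd hne (by simpa using map_dvd φ hgd :
    g.map φ ∣ X ^ p ^ 2 - X)).exists_eval_eq_zero (by
      rw [degree_map]; exact (degree_pos_of_irreducible hg).ne')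
  exact ⟨x, IsRoot.dvd hx (map_dvd φ hgf)⟩

/-- **The coefficient ring.** -/
theorem exists_coeff (p : ℕ) [Fact p.Prime] :
    ∃ (O : Type) (_ : CommRing O) (_ : IsDomain O) (_ : IsDiscreteValuationRing O)
      (_ : IsAdicComplete (maximalIdeal O) O) (_ : Finite (ResidueField O)) (_ : CharZero O)
      (_ : CharP (ResidueField O) p),
      (p : O) ∈ maximalIdeal O ∧ (∃ ζ : O, IsPrimitiveRoot ζ p) ∧
      (∀ f : (ZMod p)[X], f.natDegree = 2 →
        ∃ x : ResidueField O, (f.map (ZMod.castHom dvd_rfl _)).IsRoot x) ∧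
      ∃ φ : O →+* ball1 ℂ_[p], Function.Injective φ ∧
        ∀ c ∈ maximalIdeal O, ‖(φ c : ℂ_[p])‖ < 1 := by
  classical
  have hp : p.Prime := Fact.out
  have h4 : 4 ≤ p ^ 2 := by nlinarith [hp.two_le]
  have : Finite (ResidueField ℤ_[p]) :=
    Finite.of_equiv _ (PadicInt.residueField (p := p)).symm.toEquiv
  set N := p * (p ^ 2 - 1)
  have hN : N ≠ 0 := Nat.mul_ne_zero hp.ne_zero (by omega)
  have : NeZero N := ⟨hN⟩
  set K := AlgebraicClosure (FractionRing ℤ_[p])
  have : CharZero (FractionRing ℤ_[p]) :=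
    charZero_of_injective_algebraMap (IsFractionRing.injective ℤ_[p] _)
  obtain ⟨μ, hμ⟩ := HasEnoughRootsOfUnity.exists_primitiveRoot K N
  have : Module.Finite ℤ (AdjoinRoot (cyclotomic N ℤ)) :=
    (cyclotomic.monic N ℤ).finite_adjoinRoot
  let θ : AdjoinRoot (cyclotomic N ℤ) →+* K :=
    AdjoinRoot.lift (Int.castRingHom K) μ (by
      rw [eval₂_eq_eval_map, map_cyclotomic]
      exact hμ.isRoot_cyclotomic (Nat.pos_of_ne_zero hN))
  obtain ⟨O, i1, i2, i3, i4, i5, i6, i7, i8, i9, j, θ', hinj, hjinj, hj, hjθ⟩ :=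
    GaloisReps.exists_coeffExt ℤ_[p] θ
  have hpO : (p : O) ∈ maximalIdeal O := by
    rw [← map_natCast (algebraMap ℤ_[p] O)]
    exact map_nonunit (algebraMap ℤ_[p] O) _ (by
      rw [PadicInt.maximalIdeal_eq_span_p]; exact Ideal.mem_span_singleton_self _)
  have hchar : CharP (ResidueField O) p := (CharP.charP_iff_prime_eq_zero hp).2 (by
    rw [← map_natCast (residue O), residue_eq_zero_iff]; exact hpO)
  set μO := θ' (AdjoinRoot.root _)
  have hμO : IsPrimitiveRoot μO N := by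
    refine IsPrimitiveRoot.of_map_of_injective (f := j) ?_ hjinj
    rw [← RingHom.comp_apply, hjθ, AdjoinRoot.lift_root]
    exact hμ
  have hω : IsPrimitiveRoot (residue O (μO ^ p)) (p ^ 2 - 1) := by
    have h1 : IsPrimitiveRoot (μO ^ p) (p ^ 2 - 1) := hμO.pow (Nat.pos_of_ne_zero hN) rfl
    have : NeZero ((p ^ 2 - 1 : ℕ) : ResidueField O) := ⟨fun h => by
      rw [CharP.cast_eq_zero_iff (ResidueField O) p] at h
      have h5 := Nat.dvd_sub (dvd_pow_self p two_ne_zero) h
      rw [Nat.sub_sub_self (by omega)] at h5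
      exact hp.one_lt.ne' (Nat.dvd_one.mp h5)⟩
    have h2 := (h1.isRoot_cyclotomic (by omega)).map (f := residue O)
    rw [map_cyclotomic] at h2
    exact isRoot_cyclotomic_iff.mp h2
  refine ⟨O, i1, i2, i3, i4, i5, i6, hchar, hpO, ⟨μO ^ (p ^ 2 - 1), ?_⟩,
    exists_root_quadratic hω, ?_⟩
  · exact hμO.pow (Nat.pos_of_ne_zero hN) (mul_comm _ _)
  let ψ : ℤ_[p] →+* ℂ_[p] := (algebraMap ℚ_[p] ℂ_[p]).comp (algebraMap ℤ_[p] ℚ_[p])
  letI := ψ.toAlgebra
  have hψinj : Function.Injective (algebraMap ℤ_[p] ℂ_[p]) :=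
    (algebraMap ℚ_[p] ℂ_[p]).injective.comp (IsFractionRing.injective ℤ_[p] ℚ_[p])
  have : Module.IsTorsionFree ℤ_[p] ℂ_[p] :=
    Module.isTorsionFree_iff_algebraMap_injective.mpr hψinj
  have : Module.IsTorsionFree ℤ_[p] O := Module.isTorsionFree_iff_algebraMap_injective.mpr hinj
  have : Algebra.IsAlgebraic ℤ_[p] O := Algebra.IsIntegral.isAlgebraic
  let φ₀ : O →ₐ[ℤ_[p]] ℂ_[p] := IsAlgClosed.lift
  have hnorm : ∀ x : ℤ_[p], ‖ψ x‖ ≤ 1 := fun x => by
    show ‖algebraMap ℚ_[p] ℂ_[p] (x : ℚ_[p])‖ ≤ 1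
    rw [norm_algebraMap']
    exact x.norm_le_one
  have hball : ∀ c : O, φ₀ c ∈ ball1 ℂ_[p] := fun c => by
    refine norm_le_one_of_isIntegral ?_
    obtain ⟨P, hP, hP0⟩ := (Algebra.IsIntegral.isIntegral (R := ℤ_[p]) c).map φ₀
    refine ⟨P.map (ψ.codRestrict (ball1 ℂ_[p]) hnorm), hP.map _, ?_⟩
    rw [eval₂_map]
    exact hP0
  refine ⟨φ₀.toRingHom.codRestrict _ hball, fun a b h => ?_, fun c hc => ?_⟩
  · have hker : RingHom.ker φ₀.toRingHom = ⊥ :=
      Ideal.eq_bot_of_comap_eq_bot (R := ℤ_[p]) (by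
        rw [eq_bot_iff]
        intro z hz
        refine hψinj ?_
        rw [map_zero, ← AlgHom.commutes φ₀]
        exact hz)
    exact (RingHom.injective_iff_ker_eq_bot _).mpr hker (congrArg Subtype.val h)
  · show ‖φ₀ c‖ < 1
    obtain ⟨k, hk⟩ : ∃ k, maximalIdeal O ^ k ≤ Ideal.span {(p : O)} := by
      refine Ideal.exists_pow_le_of_le_radical_of_fg ?_ (IsNoetherian.noetherian _)
      rw [Ideal.radical_eq_sInf]
      refine le_sInf fun P hP => ?_
      have hne : P ≠ ⊥ := fun h => by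
        have := hP.1 (Ideal.mem_span_singleton_self _)
        rw [h, Ideal.mem_bot] at this
        exact (Nat.cast_ne_zero.mpr hp.ne_zero) this
      have := hP.2
      exact (IsLocalRing.eq_maximalIdeal (Ideal.IsPrime.isMaximal this hne)).ge
    obtain ⟨u, hu⟩ := Ideal.mem_span_singleton'.mp (hk (Ideal.pow_mem_pow hc k))
    have hk0 : k ≠ 0 := by
      rintro rfl
      rw [pow_zero, Ideal.one_eq_top, top_le_iff, Ideal.span_singleton_eq_top] at hk
      exact hpO hk
    have hp1 : ‖(p : ℂ_[p])‖ < 1 := by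
      rw [← map_natCast (algebraMap ℚ_[p] ℂ_[p]), norm_algebraMap']
      exact Padic.norm_p_lt_one
    have h1 : ‖φ₀ c‖ ^ k < 1 := by
      rw [← norm_pow, ← map_pow, ← hu, map_mul, map_natCast, norm_mul]
      calc ‖φ₀ u‖ * ‖(p : ℂ_[p])‖ ≤ 1 * ‖(p : ℂ_[p])‖ :=
            mul_le_mul_of_nonneg_right (hball u) (norm_nonneg _)
        _ < 1 := by rw [one_mul]; exact hp1
    exact (pow_lt_one_iff_of_nonneg (norm_nonneg _) hk0).mp h1

end Fermat.Agent.RT.Assembly
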