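import Fermat.Agent.RT.Interface
import Fermat.Agent.RT.Two.Switch.Trace
import Fermat.Agent.LevelRaising.Residual
import Fermat.Agent.ConductorLevel.Raise
import Fermat.Agent.Arith.Chebotarev.Main
import Fermat.Prelude.Def_FLTPrelim_ModularRep

/-!
# Comparing Galois representations and integral models at the Frobenius elements
-/

set_option autoImplicit false

noncomputable section

open WeierstrassCurve WeierstrassCurve.Affine WeierstrassCurve.Affine.Point Polynomial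
open CongruenceSubgroup ModularFormClass
open scoped WeierstrassCurve.Affine TensorProduct

namespace Fermat.Agent.RT.Assembly

local notation "Q̄" => AlgebraicClosure ℚ
local notation "GQ" => AlgebraicClosure ℚ ≃ₐ[ℚ] AlgebraicClosure ℚ

/-- Characteristic polynomials agreeing at almost all Frobenius elements agree everywhere. -/
theorem charpoly_eq_of_frobenius {F : Type} [Field F] (ρ₁ ρ₂ : ResidualGaloisRep F) (T : Finset ℕ)
    (h : ∀ ℓ : ℕ, ℓ.Prime → ℓ ∉ T → ∀ A : ValuationSubring Q̄, A.LiesOverPrime ℓ →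
      ∀ σ : GQ, A.IsFrobeniusAt σ ℓ →
        LinearMap.charpoly (ρ₁.ρ σ) = LinearMap.charpoly (ρ₂.ρ σ)) (g : GQ) :
    LinearMap.charpoly (ρ₁.ρ g) = LinearMap.charpoly (ρ₂.ρ g) := by
  obtain ⟨L₁, hL₁, h₁⟩ := ρ₁.factorsThroughFiniteLevel
  obtain ⟨L₂, hL₂, h₂⟩ := ρ₂.factorsThroughFiniteLevel
  obtain ⟨ℓ, hℓ, hℓT, A, hA, σ, hσ, he⟩ := Arith.Chebotarev.exists_frobenius_eq
    (ρ₁.ρ.prod ρ₂.ρ) (L₁ ⊔ L₂) (fun τ hτ => Prod.ext
      (h₁ τ fun x hx => hτ x ((le_sup_left : L₁ ≤ L₁ ⊔ L₂) hx))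
      (h₂ τ fun x hx => hτ x ((le_sup_right : L₂ ≤ L₁ ⊔ L₂) hx))) g T
  have h' := h ℓ hℓ hℓT A hA σ hσ
  rw [show ρ₁.ρ σ = ρ₁.ρ g from congrArg Prod.fst he,
    show ρ₂.ρ σ = ρ₂.ρ g from congrArg Prod.snd he] at h'
  exact h'

/-- Integral models of one elliptic curve have congruent `a_ℓ`. -/
theorem apOfModel_cast_eq {E : WeierstrassCurve ℚ} [E.IsElliptic] {W W' : WeierstrassCurve ℤ}
    (hW : W.IsIntegralModelOf E) (hW' : W'.IsIntegralModelOf E) {p : ℕ} [Fact p.Prime] {ℓ : ℕ}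
    (hℓ : ℓ.Prime) (hgood : W.IsGoodPrimeFor ℓ) (hgood' : W'.IsGoodPrimeFor ℓ) (hne : ℓ ≠ p) :
    (W.apOfModel ℓ : ZMod p) = (W'.apOfModel ℓ : ZMod p) := by
  obtain ⟨A, hA⟩ := Arith.exists_liesOverPrime hℓ
  obtain ⟨σ, hσ⟩ := Arith.exists_isFrobeniusAt hA hℓ
  obtain ⟨C, hC⟩ := hW
  obtain ⟨C', hC'⟩ := hW'
  rw [← EC.FrobTrace.galoisTrace_frobenius W hℓ hgood hne hA hσ,
    ← EC.FrobTrace.galoisTrace_frobenius W' hℓ hgood' hne hA hσ, ← hC, ← hC']
  exact (Two.Switch.galoisTrace_variableChange E C p σ).trans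
    (Two.Switch.galoisTrace_variableChange E C' p σ).symm

end Fermat.Agent.RT.Assembly
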