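import Fermat.Agent.RT.Assembly.Patch
import Fermat.Agent.RT.Assembly.Entries
import Fermat.Agent.CFT.Tangent.Derivation
import Fermat.Agent.RT.Assembly.Matrices

/-!
# A patching level from a representation over a finite algebra acting on a level

The coordinates are the traceless parts of the inertia and Frobenius matrices at the places of
`V`, with `g` further ones; they are onto the algebra of entries.
-/

set_option autoImplicit false
set_option linter.style.haveILetI false

noncomputable section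

namespace Fermat.Agent.RT.Assembly

open MvPowerSeries IsLocalRing Fermat.Agent.Deform Fermat.Agent.CFT.Tangent Fermat.Agent.RT.Germ

variable {V : Type} {O : Type} [CommRing O] [IsDomain O] [IsDiscreteValuationRing O]
  [IsAdicComplete (maximalIdeal O) O]

/-- The series `s² + t r - ((v - 1) / 2)²`; `c` is an inverse of `2`. -/
def frobRel {g : ℕ} (c : O) (v₀ : V) (v : ℕ) : MvPowerSeries (Coord V (Fin g)) O :=
  X (Sum.inl (v₀, 1, 0)) ^ 2 + X (Sum.inl (v₀, 1, 1)) * X (Sum.inl (v₀, 1, 2)) -
    C ((c * ((v : O) - 1)) ^ 2)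

/-- The place coordinates of a pair of matrices per place. -/
def placeCoord {R : Type} [CommRing R] (c : R) (Sm Pm : V → M2 R) : V × Fin 2 × Fin 3 → R :=
  fun x => tlCoord c (if x.2.1 = 0 then Sm x.1 else Pm x.1) x.2.2

theorem placeCoord_map {R R' : Type} [CommRing R] [CommRing R'] (f : R →+* R') (c : R)
    (Sm Pm : V → M2 R) (x : V × Fin 2 × Fin 3) :
    f (placeCoord c Sm Pm x) =
      placeCoord (f c) (fun v => (Sm v).map f) (fun v => (Pm v).map f) x := by
  obtain ⟨v, i, k⟩ := x
  fin_cases i <;> fin_cases k <;> simp [placeCoord, tlCoord]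

omit [IsAdicComplete (maximalIdeal O) O] in
theorem tlCoord_mem {R : Type} [CommRing R] [IsLocalRing R] [Algebra O R] (h : IsResAlg O R)
    (c : R) {X : M2 R} {e : ResidueField O}
    (hX : ∀ i j, augment h (X i j) = if i = j then e else 0) (k : Fin 3) :
    tlCoord c X k ∈ maximalIdeal R := by
  rw [← augment_eq_zero_iff h]
  fin_cases k <;> simp [tlCoord, map_mul, map_sub, hX]

variable [Finite V] {A : Type} [CommRing A] [IsLocalRing A] [Algebra O A] [Module.Finite O A]

/-- **A patching level.** The hypotheses on the traces and on `frobRel` are read in matrices over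
the level. -/
theorem exists_patchLevel (hA : IsResAlg O A) {g r p B n d : ℕ} (hd : 0 < d) (hdB : d ≤ B)
    (rep : A →ₐ[O] Matrix (Fin d) (Fin d) (MvPowerSeries (Fin r) O ⧸ levelIdeal O p n))
    (c : O) (hc : 2 * c = 1) (ru : Gal →* M2 A) (σT φT : V → Gal) (σQ : Fin r → Gal)
    (ζ ζi : O) (hζi : ζ * ζi = 1) (hζp : ζ ^ p = 1) (hζne : ζ ≠ ζi) (vT : V → ℕ)
    (hv : ∀ v, vT v % p = 1)
    (hres : ∀ v i j, augment hA (ru (σT v) i j) = if i = j then 1 else 0)
    (hresφ : ∀ v, ∃ e, ∀ i j, augment hA (ru (φT v) i j) = if i = j then e else 0)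
    (hdet : ∀ v, (ru (σT v)).det = 1) (hdetφ : ∀ v, (ru (φT v)).det = (vT v : A))
    (hconj : ∀ v, ru (φT v) * ru (σT v) = ru (σT v) ^ vT v * ru (φT v))
    (htrT : ∀ v, rep (ru (σT v)).trace = rep (algebraMap O A (ζ + ζi)))
    (htrQ : ∀ i, Matrix.scalar (Fin d)
        ((1 + Ideal.Quotient.mk (levelIdeal O p n) (X i)) ^ 2 + 1) =
      Matrix.scalar (Fin d) (1 + Ideal.Quotient.mk (levelIdeal O p n) (X i)) *
        rep (ru (σQ i)).trace)
    (v₀ : V) {π : O} (hf : ∀ i j, rep ((ru (φT v₀)).trace ^ 2 - ((vT v₀ : A) + 1) ^ 2) i j ∈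
      Ideal.span {algebraMap O (MvPowerSeries (Fin r) O ⧸ levelIdeal O p n) π})
    [hloc : IsLocalRing (Algebra.adjoin O (entries ru))]
    (hg : Module.finrank (ResidueField O)
      (killedDer (isResAlg_subalgebra hA (Algebra.adjoin O (entries ru)))
        (placeCoord (algebraMap O _ c)
          (fun v => corestrict (Algebra.adjoin O (entries ru)) ru
            (fun σ i j => Algebra.subset_adjoin ⟨(σ, i, j), rfl⟩) (σT v))
          (fun v => corestrict (Algebra.adjoin O (entries ru)) ru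
            (fun σ i j => Algebra.subset_adjoin ⟨(σ, i, j), rfl⟩) (φT v)))) ≤ g) :
    Nonempty (PatchLevel (fun _ : V => c * (ζ - ζi)) (frobRel (g := g) c v₀ (vT v₀)) π p r B n) := by
  classical
  set S := Algebra.adjoin O (entries ru) with hS
  set rS := corestrict S ru (fun σ i j => Algebra.subset_adjoin ⟨(σ, i, j), rfl⟩) with hrS
  have hcA : 2 * algebraMap O A c = 1 := by rw [← map_ofNat (algebraMap O A) 2, ← map_mul, hc, map_one]
  have := finite_subalgebra S
  have hRA := isResAlg_subalgebra hA S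
  have := hRA.isLocalHom
  have := isAdicComplete_subalgebra S hRA.isLocalHom
  have := IsNoetherianRing.of_finite O S
  set x := placeCoord (algebraMap O S c) (fun v => rS (σT v)) (fun v => rS (φT v)) with hx
  have hxm : ∀ y, x y ∈ maximalIdeal S := by
    rintro ⟨v, i, k⟩
    obtain ⟨e, he⟩ := hresφ v
    rcases eq_or_ne i 0 with rfl | hi
    · simp only [hx, placeCoord, if_pos]
      exact tlCoord_mem hRA _ (fun a b => (augment_subalgebra hA S _).trans (hres v a b)) k
    · simp only [hx, placeCoord, if_neg hi]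
      exact tlCoord_mem hRA _ (fun a b => (augment_subalgebra hA S _).trans (he a b)) k
  obtain ⟨γ, hγ, hγx⟩ := exists_coord_surjective hRA x hxm hg
  have hval : ∀ y, ((γ (X (Sum.inl y)) : S) : A) =
      placeCoord (algebraMap O A c) (fun v => ru (σT v)) (fun v => ru (φT v)) y := fun y => by
    rw [hγx, hx]
    exact placeCoord_map (S.val : S →+* A) _ _ _ y
  let act : MvPowerSeries (Coord V (Fin g)) O →ₐ[O] _ := rep.comp (S.val.comp γ)
  have hact : ∀ y, act y = rep (γ y : A) := fun y => rfl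
  -- the relations hold modulo the kernel
  let I := RingHom.ker rep
  let q : A →ₐ[O] A ⧸ I := Ideal.Quotient.mkₐ O I
  have hq : ∀ a b, rep a = rep b ↔ q a = q b := fun a b => by
    rw [← sub_eq_zero, ← map_sub, ← RingHom.mem_ker, ← Ideal.Quotient.eq_zero_iff_mem]
    show Ideal.Quotient.mk I (a - b) = 0 ↔ _
    rw [map_sub, sub_eq_zero]
    rfl
  let Sq : V → M2 (A ⧸ I) := fun v => (ru (σT v)).map q
  let Pq : V → M2 (A ⧸ I) := fun v => (ru (φT v)).map q
  have htr : ∀ v, (Sq v).trace = algebraMap O (A ⧸ I) (ζ + ζi) := fun v => by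
    rw [← q.commutes]
    exact (AddMonoidHom.map_trace q.toLinearMap.toAddMonoidHom _).symm.trans ((hq _ _).mp (htrT v))
  have hdetq : ∀ v, (Sq v).det = 1 := fun v => by
    rw [show Sq v = (q : A →+* A ⧸ I).mapMatrix (ru (σT v)) from rfl, ← RingHom.map_det, hdet,
      map_one]
  have hpow : ∀ v, Sq v ^ p = 1 := fun v => by
    refine pow_eq_one_of_quadratic (a := ζ) (b := ζi) hζne hζp ?_ ?_
    · calc ζi ^ p = (ζ * ζi) ^ p := by rw [mul_pow, hζp, one_mul]
        _ = 1 := by rw [hζi, one_pow]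
    · rw [hζi, one_smul, ← IsScalarTower.algebraMap_smul (A ⧸ I) (ζ + ζi) (Sq v)]
      exact quadratic_of_det_one (htr v) (hdetq v)
  have hcomm : ∀ v, Commute (Pq v) (Sq v) := fun v => by
    refine commute_of_conj_eq_pow (hpow v) (hv v) ?_
    show (q : A →+* A ⧸ I).mapMatrix _ * (q : A →+* A ⧸ I).mapMatrix _ =
      (q : A →+* A ⧸ I).mapMatrix _ ^ _ * (q : A →+* A ⧸ I).mapMatrix _
    rw [← map_mul, hconj, map_mul, map_pow]
  have hcq : 2 * algebraMap O (A ⧸ I) c = 1 := by
    rw [← map_ofNat (algebraMap O (A ⧸ I)) 2, ← map_mul, hc, map_one]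
  have hcoord : ∀ y, q (γ (X (Sum.inl y)) : A) =
      placeCoord (algebraMap O (A ⧸ I) c) Sq Pq y := fun y => by
    rw [hval, ← q.commutes]
    exact placeCoord_map (q : A →+* A ⧸ I) _ _ _ y
  have hrel : ∀ y ∈ relIdeal (ρ := Fin g) (fun _ : V => c * (ζ - ζi)), act y = 0 := by
    suffices hle : relIdeal (ρ := Fin g) (fun _ : V => c * (ζ - ζi)) ≤
        RingHom.ker ((q.comp (S.val.comp γ)) :
          MvPowerSeries (Coord V (Fin g)) O →+* A ⧸ I) by
      intro y hy
      rw [hact, ← map_zero rep, hq, map_zero]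
      exact hle hy
    rw [relIdeal, Ideal.span_le]
    rintro _ (⟨v, rfl⟩ | ⟨⟨v, i, j⟩, rfl⟩)
    · show q (γ _ : A) = 0
      rw [conicRel, show (C (c * (ζ - ζi)) : MvPowerSeries (Coord V (Fin g)) O) =
        algebraMap O _ (c * (ζ - ζi)) from rfl, ← map_pow (algebraMap O _)]
      simp only [map_sub, map_add, map_mul, map_pow, hcoord, placeCoord, if_pos, AlgHom.commutes,
        Subalgebra.coe_algebraMap, AddSubgroupClass.coe_sub, AddMemClass.coe_add,
        MulMemClass.coe_mul, SubmonoidClass.coe_pow]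
      rw [tlCoord_conic hcq (htr v) (hdetq v)]
      have hcO : (c * (ζ + ζi)) ^ 2 - 1 - (c * (ζ - ζi)) ^ 2 = 0 := by
        linear_combination (4 * c ^ 2) * hζi + (2 * c + 1) * hc
      rw [← map_zero (algebraMap O (A ⧸ I)), ← hcO]
      simp only [map_sub, map_pow, map_mul, map_one, map_add]
    · show q (γ _ : A) = 0
      have h10 : (1 : Fin 2) ≠ 0 := by decide
      simp only [minorRel, map_sub, map_mul, hcoord, placeCoord, if_pos, if_neg h10,
        AddSubgroupClass.coe_sub, MulMemClass.coe_mul]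
      rw [sub_eq_zero]
      exact tlCoord_minor (hcomm v).symm i j
  refine ⟨⟨d, hd, hdB, act, hrel, fun i => ?_, fun i j => ?_⟩⟩
  · have hmem : (ru (σQ i)).trace ∈ S := by
      rw [Matrix.trace_fin_two]
      exact add_mem (Algebra.subset_adjoin ⟨(σQ i, 0, 0), rfl⟩)
        (Algebra.subset_adjoin ⟨(σQ i, 1, 1), rfl⟩)
    obtain ⟨y, hy⟩ := hγ ⟨_, hmem⟩
    exact ⟨y, by rw [hact, hy]; exact htrQ i⟩
  · obtain ⟨u, hu⟩ : IsUnit (4 : O) := IsUnit.of_mul_eq_one (c * c) (by linear_combination (2 * c + 1) * hc)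
    have key : 4 * ((γ (frobRel c v₀ (vT v₀)) : S) : A) =
        (ru (φT v₀)).trace ^ 2 - ((vT v₀ : A) + 1) ^ 2 := by
      have h10 : (1 : Fin 2) ≠ 0 := by decide
      rw [frobRel, show (C ((c * ((vT v₀ : O) - 1)) ^ 2) : MvPowerSeries (Coord V (Fin g)) O) =
        algebraMap O _ ((c * ((vT v₀ : O) - 1)) ^ 2) from rfl]
      simp only [map_sub, map_add, map_mul, map_pow, AlgHom.commutes, AddSubgroupClass.coe_sub,
        AddMemClass.coe_add, MulMemClass.coe_mul, SubmonoidClass.coe_pow, hval, placeCoord,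
        if_neg h10, Subalgebra.coe_algebraMap]
      rw [mul_sub, tlCoord_sq hcA, hdetφ, map_natCast, map_one]
      linear_combination (-((vT v₀ : A) - 1) ^ 2 * (2 * algebraMap O A c + 1)) * hcA
    have hmul : rep (algebraMap O A (↑u⁻¹ : O) *
        ((ru (φT v₀)).trace ^ 2 - ((vT v₀ : A) + 1) ^ 2)) i j ∈
        Ideal.span {algebraMap O (MvPowerSeries (Fin r) O ⧸ levelIdeal O p n) π} := by
      rw [map_mul, AlgHom.commutes, ← Algebra.smul_def, Matrix.smul_apply]
      exact Submodule.smul_of_tower_mem _ _ (hf i j)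
    rw [← key, ← mul_assoc, ← map_ofNat (algebraMap O A) 4, ← map_mul, ← hu, Units.inv_mul,
      map_one, one_mul] at hmul
    exact hmul

end Fermat.Agent.RT.Assembly
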