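import Fermat.Agent.EC.Multiplicative.Rational
import Fermat.Agent.Mazur.Eisenstein.Unram
import Fermat.Agent.EC.Multiplicative.Count

/-!
# Ramification at multiplicative primes with component order prime to `n`

For an odd prime `n` not dividing `v_q(Δ)`, inertia at `q` moves an `n`-torsion point.
-/

set_option autoImplicit false

open WeierstrassCurve WeierstrassCurve.Affine
open scoped WeierstrassCurve.Affine
open Fermat.Agent.Arith Fermat.Agent.EC.Reduction Fermat.Agent.EC.Multiplicative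

namespace Fermat.Agent.RT.Assembly

local notation "Q̄" => AlgebraicClosure ℚ

/-- Inertia at a multiplicative prime moves some `n`-torsion point when `n ∤ v_q(Δ)`. -/
theorem exists_inertia_moves_torsion {W : WeierstrassCurve ℤ} {A : ValuationSubring Q̄} {q : ℕ}
    (hA : A.LiesOverPrime q) (hq : q.Prime) (hΔ0 : W.Δ ≠ 0) (hΔ : (q : ℤ) ∣ W.Δ)
    (hc₄ : ¬ (q : ℤ) ∣ W.c₄) {n : ℕ} (hn : n.Prime) (hodd : Odd n) (hqn : q ≠ n)
    (hnv : ¬ n ∣ padicValInt q W.Δ) :
    ∃ σ ∈ A.inertiaSubgroupIn ℚ, ∃ P : ((W.map (Int.castRingHom ℚ))⁄Q̄).Point,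
      n • P = 0 ∧ σ • P ≠ P := by
  classical
  have : (W.map (Int.castRingHom ℚ)).IsElliptic :=
    (WeierstrassCurve.isElliptic_iff _).mpr (isUnit_iff_ne_zero.mpr (by
      rw [map_Δ]; simpa using hΔ0))
  obtain ⟨N, hN⟩ := exists_node_int hA hq hΔ0 hΔ hc₄
  obtain ⟨P, hPn, hP0⟩ := N.exists_torsion_not_inE0
    (valuation_natCast_eq_one hA hq fun h => hqn ((Nat.prime_dvd_prime_iff_eq hq hn).mp h))
    hn.one_lt (EC.Torsion.natCard_torsionBy_algebraicClosureRat
      (W.map (Int.castRingHom ℚ)) hn.ne_zero)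
  by_contra hall
  push Not at hall
  match P, hP0, hPn with
  | .zero, hP0, _ => exact hP0 trivial
  | .some x y h, hP0, hPn =>
    refine hP0 (inE0_of_nsmul_eq_zero hA hq hΔ0 hΔ hc₄ hn hodd hnv (fun r hne k hk => ?_) hPn)
    have hxfix : ∀ σ ∈ A.inertiaSubgroupIn ℚ, σ x = x := fun σ hσ => by
      obtain ⟨h'', e⟩ := smul_some (σ := σ) h
      exact ((Point.some.injEq ..).mp (e.symm.trans (hall σ hσ _ hPn))).1
    obtain ⟨m, hm⟩ := Mazur.Eisenstein.exists_int_ordAt hA hq hne fun σ hσ => by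
      rw [map_sub, hxfix σ hσ, map_intCast]
    have hord := Mazur.Eisenstein.ordAt_eq hA hq hn.pos (x := x - (r : Q̄)) (k := (k : ℤ))
      (by rw [zpow_natCast]; exact hk)
    rw [hm, eq_div_iff (by exact_mod_cast hn.ne_zero)] at hord
    have hint : m * (n : ℤ) = (k : ℤ) := by exact_mod_cast hord
    exact Int.natCast_dvd_natCast.mp ⟨m, by rw [← hint, mul_comm]⟩

end Fermat.Agent.RT.Assembly
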