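import Fermat.Agent.RT.Assembly.RamifiedTwo
import Fermat.Agent.EC.Rep.Local.Unipotent

/-!
# Absolute irreducibility after extension of scalars
-/

set_option autoImplicit false

noncomputable section

open WeierstrassCurve WeierstrassCurve.Affine WeierstrassCurve.Affine.Point Polynomial
open scoped WeierstrassCurve.Affine TensorProduct

namespace Fermat.Agent.RT.Assembly

local notation "Q̄" => AlgebraicClosure ℚ
local notation "GQ" => AlgebraicClosure ℚ ≃ₐ[ℚ] AlgebraicClosure ℚ

/-- A base change of an absolutely irreducible representation is absolutely irreducible, given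
irreducibility over every field. -/
theorem isAbsolutelyIrreducible_baseChange {k₀ k : Type} [Field k₀] [Field k] [Algebra k₀ k]
    (ρ : ResidualGaloisRep k₀)
    (h : ∀ (K : Type) [Field K] [Algebra k₀ K], (ρ.baseChange K).IsIrreducible) :
    (ρ.baseChange k).IsAbsolutelyIrreducible := by
  let K := AlgebraicClosure k
  let e : K ⊗[k] (k ⊗[k₀] ρ.V) ≃ₗ[K] K ⊗[k₀] ρ.V :=
    TensorProduct.AlgebraTensorModule.cancelBaseChange k₀ k K K ρ.V
  have he : ∀ σ : GQ, e.toLinearMap ∘ₗ ((ρ.ρ σ).baseChange k).baseChange K =
      (ρ.ρ σ).baseChange K ∘ₗ e.toLinearMap := fun σ => by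
    ext v
    simp [e]
  intro W hW
  rcases h K (W.map e.toLinearMap) (fun σ x hx => by
      obtain ⟨w, hw, rfl⟩ := hx
      exact ⟨_, hW σ w hw, LinearMap.congr_fun (he σ) w⟩) with h' | h'
  · exact Or.inl (Submodule.map_injective_of_injective e.injective
      (h'.trans (Submodule.map_bot _).symm))
  · exact Or.inr (Submodule.map_injective_of_injective e.injective
      (h'.trans (by rw [Submodule.map_top, LinearEquiv.range])))

end Fermat.Agent.RT.Assembly
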