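import Fermat.Agent.EC.Rep.Tame
import Fermat.Agent.Mazur.Eisenstein.CycInertia
import Fermat.Agent.Arith.Minkowski
import Fermat.Agent.Arith.Frobenius
import Fermat.Agent.Arith.Radical

/-!
# Tame inertia at a prime `v ≠ p`

An inertia element with trivial tame characters dies in every finite quotient of order prime to
`v`; the commutation with a Frobenius; an additive character on inertia with values in a module
killed by `p` is determined by one element moving a `p`-th root of a uniformiser.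
-/

set_option autoImplicit false

noncomputable section

namespace Fermat.Agent.RT.Assembly

open Fermat.Agent.Arith Fermat.Agent.EC.Rep Fermat.Agent.EC.Reduction
open scoped Pointwise

variable {A : ValuationSubring QBar} {v : ℕ} {σ τ φ : GQ}

/-- The tame characters of an inertia element are trivial. -/
def TameTrivial (A : ValuationSubring QBar) (ν : GQ) : Prop :=
  ∀ z : QBar, z ≠ 0 → res A (ν z / z) = 1

/-- An inertia element with trivial tame characters dies in a finite quotient as soon as a power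
prime to `v` does. -/
theorem eq_one_of_tameTrivial {M : Type} [Monoid M] (ρ : GQ →* M)
    (hρ : ∃ L : IntermediateField ℚ QBar, FiniteDimensional ℚ L ∧
      ∀ σ : GQ, (∀ x ∈ L, σ x = x) → ρ σ = 1)
    (hA : A.LiesOverPrime v) (hv : v.Prime) {ν : GQ} (hν : ν ∈ A.inertiaSubgroupIn ℚ)
    (htriv : TameTrivial A ν) {n : ℕ} (hn : ¬ v ∣ n) (hpow : ρ ν ^ n = 1) : ρ ν = 1 := by
  obtain ⟨L, hL, hL'⟩ := hρ
  have hopen := isOpen_galKer_of_fixing L hL'
  have hfix : (IntermediateField.fixedField (galKer ρ)).fixingSubgroup = galKer ρ :=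
    InfiniteGalois.fixingSubgroup_fixedField ⟨galKer ρ, (galKer ρ).isClosed_of_isOpen hopen⟩
  rw [← mem_galKer, ← hfix, IntermediateField.mem_fixingSubgroup_iff]
  exact fun y hy => apply_eq_self_of_res_eq_one hA hv hν htriv hn
    (hy ⟨ν ^ n, mem_galKer.mpr (by rw [map_pow, hpow])⟩)

theorem res_apply_div_self_of_valuation_eq (hσ : σ ∈ A.inertiaSubgroupIn ℚ) {w z : QBar}
    (hw : w ≠ 0) (hz : z ≠ 0) (h : A.valuation w = A.valuation z) :
    res A (σ w / w) = res A (σ z / z) := by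
  have hv1 : A.valuation (w / z) = 1 := by
    rw [map_div₀, h, div_self (A.valuation.ne_zero_iff.mpr hz)]
  have hwz : w / z ∈ A := (A.valuation_le_one_iff _).mp hv1.le
  have hwz' : z / w ∈ A := (A.valuation_le_one_iff _).mp (by
    rw [map_div₀, h, div_self (A.valuation.ne_zero_iff.mpr hz)])
  have e : res A (w / z) * res A (z / w) = 1 := by
    rw [← res_mul hwz hwz', div_mul_div_cancel₀ hz, div_self hw, res_one]
  obtain ⟨h1, h2⟩ := EC.AtP.res_inertia hσ hwz
  have hq : σ w / w = σ z / z * (σ (w / z) * (z / w)) := by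
    have : σ z ≠ 0 := (map_ne_zero σ).mpr hz
    rw [map_div₀]
    field_simp
  rw [hq, res_mul (apply_div_self_mem hσ hz).1 (mul_mem h1 hwz'), res_mul h1 hwz', h2, e, mul_one]

/-- Conjugation by a Frobenius raises the tame characters to the `v`-th power. -/
theorem tameTrivial_frobenius_conj (hφ : A.IsFrobeniusAt φ v)
    (hσ : σ ∈ A.inertiaSubgroupIn ℚ) :
    φ * σ * φ⁻¹ * (σ ^ v)⁻¹ ∈ A.inertiaSubgroupIn ℚ ∧
      TameTrivial A (φ * σ * φ⁻¹ * (σ ^ v)⁻¹) := by
  obtain ⟨hφA, hφ'⟩ := isFrobeniusAt_iff_forall_mem.mp hφ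
  have hconj : φ * σ * φ⁻¹ ∈ A.inertiaSubgroupIn ℚ := by
    refine mem_inertia_iff_forall_mem.mpr ?_
    obtain ⟨hσA, hσ'⟩ := mem_inertia_iff_forall_mem.mp hσ
    have hφi : φ⁻¹ • A = A := inv_smul_eq_iff.mpr hφA.symm
    refine ⟨by rw [mul_smul, mul_smul, hφi, hσA, hφA], fun x hx => ?_⟩
    have h1 := smul_mem_nonunits_smul_iff (g := φ) (A := A) |>.mpr
      (hσ' _ (map_mem_of_mem_decomposition hφi hx))
    rw [hφA, AlgEquiv.smul_def, map_sub, ← AlgEquiv.mul_apply φ φ⁻¹, mul_inv_cancel,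
      AlgEquiv.one_apply] at h1
    rw [AlgEquiv.mul_apply, AlgEquiv.mul_apply]
    exact h1
  refine ⟨mul_mem hconj (inv_mem (pow_mem hσ v)), fun z hz => ?_⟩
  rw [res_apply_mul_div_self hconj (inv_mem (pow_mem hσ v)) hz,
    res_apply_inv_div_self (pow_mem hσ v) hz, res_pow_apply_div_self hσ hz]
  set w := φ⁻¹ z with hw
  have hw0 : w ≠ 0 := (map_ne_zero (φ⁻¹ : GQ)).mpr hz
  have hzw : φ w = z := by rw [hw, ← AlgEquiv.mul_apply, mul_inv_cancel, AlgEquiv.one_apply]
  have e1 : (φ * σ * φ⁻¹) z / z = φ (σ w / w) := by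
    rw [map_div₀, hzw, AlgEquiv.mul_apply, AlgEquiv.mul_apply, hw]
  have hm := (apply_div_self_mem hσ hw0).1
  have e2 : res A (φ (σ w / w)) = res A (σ w / w) ^ v := by
    have h := res_eq_zero (hφ' _ hm)
    rwa [res_sub (map_mem_of_mem_decomposition hφA hm) (pow_mem hm v), sub_eq_zero,
      res_pow hm] at h
  have hval : A.valuation w = A.valuation z := by
    rw [← hzw, EC.Multiplicative.valuation_map_eq hφA]
  rw [e1, e2, res_apply_div_self_of_valuation_eq hσ hw0 hz hval,
    mul_inv_cancel₀ (pow_ne_zero _ (apply_div_self_mem hσ hz).2)]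

/-- An additive character of inertia with values killed by `p`, vanishing at an element moving a
`p`-th root of a uniformiser, vanishes. -/
theorem eq_zero_of_apply_eq_zero {p : ℕ} (hp : p.Prime) (hA : A.LiesOverPrime v) (hv : v.Prime)
    (hvp : v ≠ p) (c : GQ → ZMod p)
    (hc : ∀ g ∈ A.inertiaSubgroupIn ℚ, ∀ h ∈ A.inertiaSubgroupIn ℚ, c (g * h) = c g + c h)
    (hcfin : ∃ L : IntermediateField ℚ QBar, FiniteDimensional ℚ L ∧
      ∀ g : GQ, (∀ x ∈ L, g x = x) → c g = 0)
    (hσ : σ ∈ A.inertiaSubgroupIn ℚ) {π : QBar} (hπ : π ≠ 0) {m : ℤ}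
    (hπord : Mazur.Eisenstein.ordAt A v π = m / p)
    (hπσ : res A (σ π / π) ≠ 1) (hπσp : res A (σ π / π) ^ p = 1) (hcσ : c σ = 0) :
    ∀ g ∈ A.inertiaSubgroupIn ℚ, c g = 0 := by
  have := Fact.mk hp
  intro τ hτ
  obtain ⟨L, hL, hL'⟩ := hcfin
  obtain ⟨ω, hω⟩ := HasEnoughRootsOfUnity.exists_primitiveRoot QBar p
  have hvp' : ¬ v ∣ p := fun h => hvp ((Nat.prime_dvd_prime_iff_eq hv hp).mp h)
  obtain ⟨α, hzj, hzg⟩ := exists_radical_of_add hc L (fun g _ => hL' g) hω
    fun g hg => inertia_root hA hv hg hω.pow_eq_one hvp'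
  have hzfix : ∀ g ∈ A.inertiaSubgroupIn ℚ, g (α ^ p) = α ^ p := fun g hg => by
    rw [map_pow, hzg g hg, mul_pow, pow_right_comm, hω.pow_eq_one, one_pow, one_mul]
  have hσz : σ α = α := by rw [hzg σ hσ, hcσ, ZMod.val_zero, pow_zero, one_mul]
  obtain ⟨k, hk⟩ := Mazur.Eisenstein.exists_int_ordAt hA hv (pow_ne_zero p hzj) hzfix
  rw [Mazur.Eisenstein.ordAt_pow hA hv hzj] at hk
  have hp0 : (p : ℚ) ≠ 0 := Nat.cast_ne_zero.mpr hp.ne_zero
  have hv0 : (v : QBar) ≠ 0 := Nat.cast_ne_zero.mpr hv.ne_zero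
  have hunit : ∀ {x y : QBar}, x ≠ 0 → y ≠ 0 →
      Mazur.Eisenstein.ordAt A v x = Mazur.Eisenstein.ordAt A v y →
      A.valuation x = A.valuation y := fun {x y} hx hy h => by
    have := (Mazur.Eisenstein.ordAt_eq_zero_iff hA hv (div_ne_zero hx hy)).mp (by
      rw [Mazur.Eisenstein.ordAt_div hA hv hx hy, h, sub_self])
    rwa [Mazur.Eisenstein.IsUnitAt, map_div₀, div_eq_one_iff_eq (A.valuation.ne_zero_iff.mpr hy)]
      at this
  have hχ : ∀ (g : GQ) (x : QBar) (e : ℤ), g ∈ A.inertiaSubgroupIn ℚ → x ≠ 0 →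
      res A (g (x ^ e) / x ^ e) = res A (g x / x) ^ e := by
    intro g x e hg hx
    obtain ⟨hm, hm0⟩ := apply_div_self_mem hg hx
    have hmi : (g x / x)⁻¹ ∈ A := by
      have hv1 : A.valuation (g x / x) = 1 := by
        rw [map_div₀, EC.Multiplicative.valuation_map_eq (mem_inertia_iff_forall_mem.mp hg).1,
          div_self (A.valuation.ne_zero_iff.mpr hx)]
      exact (A.valuation_le_one_iff _).mp (by rw [map_inv₀, hv1, inv_one])
    rw [map_zpow₀, ← div_zpow]
    obtain ⟨n, rfl | rfl⟩ := e.eq_nat_or_neg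
    · rw [zpow_natCast, zpow_natCast, res_pow hm]
    · have hu : res A (g x / x) * res A (g x / x)⁻¹ = 1 := by
        rw [← res_mul hm hmi, mul_inv_cancel₀ (div_ne_zero ((map_ne_zero g).mpr hx) hx), res_one]
      rw [zpow_neg, zpow_neg, zpow_natCast, zpow_natCast, ← inv_pow, ← inv_pow, res_pow hmi,
        eq_inv_of_mul_eq_one_right hu]
  -- the two roots have commensurable valuations
  have h1 : res A (σ π / π) ^ k = 1 := by
    have e : A.valuation (π ^ k) = A.valuation (α ^ m) :=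
      hunit (zpow_ne_zero k hπ) (zpow_ne_zero m hzj) (by
        rw [Mazur.Eisenstein.ordAt_zpow hA hv hπ, Mazur.Eisenstein.ordAt_zpow hA hv hzj, hπord]
        field_simp
        linear_combination -(m : ℚ) * hk)
    rw [← hχ σ π k hσ hπ, res_apply_div_self_of_valuation_eq hσ (zpow_ne_zero k hπ)
      (zpow_ne_zero m hzj) e, map_zpow₀, hσz, div_self (zpow_ne_zero m hzj), res_one]
  obtain ⟨a, ha⟩ : (p : ℤ) ∣ k := by
    have hord : orderOf (res A (σ π / π)) = p := orderOf_eq_prime hπσp hπσ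
    have hu : IsUnit (res A (σ π / π)) := (apply_div_self_mem hσ hπ).2.isUnit
    have : (hu.unit : (IsLocalRing.ResidueField A)ˣ) ^ k = 1 := Units.ext (by
      rw [Units.val_zpow_eq_zpow_val, IsUnit.unit_spec, h1, Units.val_one])
    rw [← hord, ← IsUnit.unit_spec hu, orderOf_units]
    exact orderOf_dvd_iff_zpow_eq_one.mpr this
  have hval : A.valuation α = A.valuation ((v : QBar) ^ a) :=
    hunit hzj (zpow_ne_zero a hv0) (by
      rw [Mazur.Eisenstein.ordAt_prime_zpow hA hv]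
      have : (p : ℚ) * Mazur.Eisenstein.ordAt A v α = p * a := by
        rw [hk, ha]; push_cast; ring
      exact mul_left_cancel₀ hp0 this)
  have h2 : res A (τ α / α) = 1 := by
    rw [res_apply_div_self_of_valuation_eq hτ hzj (zpow_ne_zero a hv0) hval, map_zpow₀, map_natCast,
      div_self (zpow_ne_zero a hv0), res_one]
  rw [hzg τ hτ, mul_div_cancel_right₀ _ hzj] at h2
  have hωA : ω ^ (c τ).val ∈ A := pow_mem (mem_of_isIntegral A (hω.isIntegral hp.pos)) _
  rw [← ZMod.val_eq_zero]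
  by_contra hne
  refine hω.pow_ne_one_of_pos_of_lt hne (ZMod.val_lt _)
    (root_congr hA hv (by rw [pow_right_comm, hω.pow_eq_one, one_pow]) (one_pow p) hvp' ?_)
  exact (res_eq_zero_iff (sub_mem hωA A.one_mem)).mp
    (by rw [res_sub hωA A.one_mem, h2, res_one, sub_self])

/-- A primitive inertia element at `v` and its `p`-th root of a uniformiser. -/
theorem exists_inertia_uniformiser {p : ℕ} (hp : p.Prime) (hA : A.LiesOverPrime v) (hv : v.Prime)
    (hpv : p ∣ v - 1) :
    ∃ (σ : GQ) (a : (ZMod v)ˣ) (π : QBar) (m : ℤ), σ ∈ A.inertiaSubgroupIn ℚ ∧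
      (∀ μ : QBar, μ ^ v = 1 → σ μ = μ ^ (a : ZMod v).val) ∧ orderOf a = v - 1 ∧ π ≠ 0 ∧
      Mazur.Eisenstein.ordAt A v π = m / p ∧ res A (σ π / π) ≠ 1 ∧ res A (σ π / π) ^ p = 1 := by
  have := Fact.mk hv
  have := residueField_charP hA hv
  obtain ⟨ζ, hζ⟩ := HasEnoughRootsOfUnity.exists_primitiveRoot QBar v
  obtain ⟨a, ha⟩ := IsCyclic.exists_generator (α := (ZMod v)ˣ)
  have hord : orderOf a = v - 1 := by
    rw [orderOf_eq_card_of_forall_mem_zpowers ha, Nat.card_eq_fintype_card, ZMod.card_units]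
  set n := (a : ZMod v).val with hn
  have hcop : n.Coprime v := by
    rw [hn]; exact (ZMod.val_coe_unit_coprime a)
  obtain ⟨σ, hσ, hσζ⟩ := Mazur.Eisenstein.exists_inertia_apply hA hv (m := 0) (ζ := ζ) (η := ζ ^ n)
    (by simpa using hζ) (by simpa using hζ.pow_of_coprime n hcop)
  have hμ : ∀ μ : QBar, μ ^ v = 1 → σ μ = μ ^ n := fun μ hμ => by
    obtain ⟨i, -, rfl⟩ := hζ.eq_pow_of_pow_eq_one hμ
    rw [map_pow, hσζ, pow_right_comm]
  set e := (v - 1) / p with he
  have hz1 : (1 : QBar) - ζ ≠ 0 := sub_ne_zero.mpr (hζ.ne_one hv.one_lt).symm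
  refine ⟨σ, a, (1 - ζ) ^ e, 1, hσ, hμ, hord, pow_ne_zero e hz1, ?_, ?_⟩
  · have h := Mazur.Eisenstein.ordAt_one_sub hA hv (m := 0) (ζ := ζ) (by simpa using hζ)
    rw [pow_one, Nat.totient_prime hv] at h
    rw [Mazur.Eisenstein.ordAt_pow hA hv hz1]
    obtain ⟨t, ht⟩ := hpv
    have het : e = t := by rw [he, ht, Nat.mul_div_cancel_left _ hp.pos]
    rw [ht, Nat.cast_mul] at h
    rw [het, Int.cast_one, eq_div_iff (Nat.cast_ne_zero.mpr hp.ne_zero : (p : ℚ) ≠ 0)]
    linear_combination h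
  · have hres : res A (σ ((1 - ζ) ^ e) / (1 - ζ) ^ e) = ((n : ℕ) : IsLocalRing.ResidueField A) ^ e := by
      rw [map_pow, ← div_pow, map_sub, map_one, hσζ,
        res_pow (Mazur.Eisenstein.one_sub_pow_mem (Mazur.Eisenstein.primitive_mem hv.pos hζ) n
          (hζ.ne_one hv.one_lt))]
      congr 1
      have hζA : ζ ∈ A := Mazur.Eisenstein.primitive_mem hv.pos hζ
      rw [show (1 - ζ ^ n) / (1 - ζ) = ∑ i ∈ Finset.range n, ζ ^ i by
        rw [div_eq_iff hz1, geom_sum_mul_neg]]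
      have hr1 : res A ζ = 1 := by
        have hpow : res A ζ ^ v = 1 := by rw [← res_pow hζA, hζ.pow_eq_one, res_one]
        have : (res A ζ - 1) ^ v = 0 := by rw [sub_pow_char, hpow, one_pow, sub_self]
        exact sub_eq_zero.mp ((pow_eq_zero_iff hv.ne_zero).mp this)
      have key : ∀ k, res A (∑ i ∈ Finset.range k, ζ ^ i) = (k : IsLocalRing.ResidueField A) := by
        intro k
        induction k with
        | zero => simp
        | succ k ih =>
          rw [Finset.sum_range_succ, res_add (sum_mem fun i _ => pow_mem hζA i) (pow_mem hζA k),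
            ih, res_pow hζA, hr1, one_pow, Nat.cast_succ]
      exact key n
    let ψ : ZMod v →+* IsLocalRing.ResidueField A := ZMod.castHom dvd_rfl _
    have hψ : ((n : ℕ) : IsLocalRing.ResidueField A) = ψ (a : ZMod v) := by
      rw [← map_natCast ψ, hn, ZMod.natCast_zmod_val]
    rw [hres, hψ, ← map_pow, ← Units.val_pow_eq_pow_val]
    constructor
    · intro h1
      have h2 : a ^ e = 1 := Units.ext (ψ.injective (by rw [h1, Units.val_one, map_one]))
      have h3 := orderOf_dvd_of_pow_eq_one h2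
      rw [hord] at h3
      have hpos : 0 < v - 1 := by have := hv.two_le; omega
      have hlt : e < v - 1 := Nat.div_lt_self hpos hp.one_lt
      have he0 : 0 < e := Nat.div_pos (Nat.le_of_dvd hpos hpv) hp.pos
      exact absurd (Nat.le_of_dvd he0 h3) (not_le.mpr hlt)
    · rw [← map_pow, ← Units.val_pow_eq_pow_val, ← pow_mul, he, Nat.div_mul_cancel hpv, ← hord,
        pow_orderOf_eq_one, Units.val_one, map_one]

end Fermat.Agent.RT.Assembly
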