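import Fermat.Agent.RT.Assembly.Matrices
import Fermat.Agent.RT.Assembly.Tame
import Fermat.Agent.CFT.Tangent.LocalPlace
import Fermat.Agent.CFT.Tangent.BaseChange

/-!
# Tangent classes of a normalised deformation whose entries generate

No universality is used: normalisation separates the derivations.
-/

set_option autoImplicit false
set_option linter.style.haveILetI false

noncomputable section

namespace Fermat.Agent.RT.Assembly

open IsLocalRing Module Fermat.Agent.Deform Fermat.Agent.CFT.Tangent Fermat.Agent.Arith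

variable {O : Type} [CommRing O] [IsLocalRing O]
variable {R : Type} [CommRing R] [IsLocalRing R] [Algebra O R]
variable {W : Rigid O} {h : IsResAlg O R} {ru : Gal →* M2 R}

theorem isLocalHom_tangentHom (δ : tangentDer h) :
    letI := dualAlgebra O
    IsLocalHom (tangentHom h δ : R →+* DualNumber (ResidueField O)) := by
  letI := dualAlgebra O
  refine ⟨fun a ha => ?_⟩
  by_contra hna
  rw [TrivSqZeroExt.isUnit_iff_isUnit_fst] at ha
  have h0 : augment h a = 0 := (augment_eq_zero_iff h a).mpr hna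
  rw [show TrivSqZeroExt.fst ((tangentHom h δ : R →+* DualNumber (ResidueField O)) a) =
    augment h a from rfl, h0] at ha
  exact not_isUnit_zero ha

/-- **Injectivity**: a derivation whose class is a coboundary is zero. -/
theorem eq_zero_of_tangentCls_eq_cobdLin [Finite (ResidueField O)] (hl : Lifts W h ru)
    (hn : IsNormal W ru) (hgen : Algebra.adjoin O (entries ru) = ⊤) (δ : tangentDer h)
    {X : M2 (ResidueField O)} (hX : tangentCls W h ru δ = cobdLin W.rb X) : δ = 0 := by
  letI := dualAlgebra O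
  have hD := isLevel_dual (𝒪 := O)
  let Q : (M2 (DualNumber (ResidueField O)))ˣ :=
    ⟨1 + epsM X, 1 - epsM X, dualM_ext (by simp) (by simp), dualM_ext (by simp) (by simp)⟩
  have hconj : mapM (tangentHom h (δ + δ) : R →+* DualNumber (ResidueField O)) ru =
      conjM Q (mapM (tangentHom h δ : R →+* DualNumber (ResidueField O)) ru) := by
    refine MonoidHom.ext fun σ => ?_
    rw [conjM_apply, mapM_tangentHom hl, mapM_tangentHom hl, map_add, Pi.add_apply, hX]
    show _ = (1 - epsM X) * _ * (1 + epsM X)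
    refine dualM_ext (by simp) ?_
    simp only [cobdLin, LinearMap.coe_mk, AddHom.coe_mk, sndM_mul, sndM_add, sndM_sub, sndM_one,
      fstM_mul, fstM_add, fstM_sub, fstM_one, sndM_epsM, fstM_epsM, sndM_inlM, fstM_inlM,
      add_zero, sub_zero, zero_add, mul_zero, one_mul, mul_one, zero_sub]
    have e : W.rb σ⁻¹ * W.rb σ = 1 := by rw [← map_mul, inv_mul_cancel, map_one]
    simp only [add_mul, sub_mul, neg_mul, mul_assoc, e, mul_one]
    abel
  have heq : mapM (tangentHom h (δ + δ) : R →+* DualNumber (ResidueField O)) ru =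
      mapM (tangentHom h δ : R →+* DualNumber (ResidueField O)) ru :=
    normal_unique (hl.map hD.resAlg _ (isLocalHom_tangentHom _))
      (hl.map hD.resAlg _ (isLocalHom_tangentHom _)) (hn.map _) (hn.map _) Q.isUnit
      fun σ => by rw [hconj, conjM_apply, mul_assoc, Units.mul_inv_cancel_left]
  exact add_eq_left.mp (tangentHom_injective h (algHom_eq_of_entries hgen heq))

theorem tangentCls_mul_rb (δ : tangentDer h) (σ : Gal) :
    tangentCls W h ru δ σ * W.rb σ = Matrix.of fun i j => δ.1 (ru σ i j) := by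
  show (_ * W.rb σ⁻¹) * W.rb σ = _
  rw [mul_assoc, ← map_mul, inv_mul_cancel, map_one, mul_one]

theorem tangentCls_eq_zero (δ : tangentDer h) {σ : Gal}
    (hσ : ∀ i j, δ.1 (ru σ i j) = 0) : tangentCls W h ru δ σ = 0 := by
  show (Matrix.of fun i j => δ.1 (ru σ i j)) * W.rb σ⁻¹ = 0
  rw [show (Matrix.of fun i j => δ.1 (ru σ i j)) = 0 from Matrix.ext hσ, zero_mul]

theorem tangentCls_eq_zero_of_eq_one (δ : tangentDer h) {σ : Gal} (hσ : ru σ = 1) :
    tangentCls W h ru δ σ = 0 :=
  tangentCls_eq_zero δ fun i j => by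
    rw [hσ]
    by_cases hij : i = j
    · subst hij; rw [Matrix.one_apply_eq]; exact tangentDer_one h δ
    · rw [Matrix.one_apply_ne hij]; exact tangentDer_zero h δ

theorem trace_tangentCls_mul_rb (δ : tangentDer h) (σ : Gal) :
    (tangentCls W h ru δ σ * W.rb σ).trace = δ.1 (ru σ).trace := by
  rw [tangentCls_mul_rb, Matrix.trace_fin_two, Matrix.trace_fin_two, δ.2.1]
  rfl

theorem trace_tangentCls [Finite (ResidueField O)] (p : ℕ) [Fact p.Prime]
    [CharP (ResidueField O) p] (hl : Lifts W h ru) (hc : IsCont ru)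
    (hdet : (toRep ru hc).DetIsCyclotomic p) (δ : tangentDer h) (σ : Gal) :
    (tangentCls W h ru δ σ).trace = 0 := by
  letI := dualAlgebra O
  refine trace_eq_zero_of_det p (CFT.Tangent.DetIsCyclotomic.baseChange
    (tangentHom h δ : R →+* DualNumber (ResidueField O)) (isLocalHom_tangentHom δ) hdet)
    (B := letI := (tangentHom h δ : R →+* DualNumber (ResidueField O)).toAlgebra
      (Pi.basisFun R (Fin 2)).baseChange (DualNumber (ResidueField O))) (r := W.rb) (fun g => ?_) σ
  refine (DFunLike.congr_fun (matOf_baseChangeAlong _ (isLocalHom_tangentHom δ) (toRep ru hc)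
    (Pi.basisFun R (Fin 2))) g).trans ?_
  rw [matOf_toRep]
  exact mapM_tangentHom hl δ g

/-- A derivation killing the traceless coordinates and the determinant kills the entries, when
the residual matrix is a nonzero scalar. -/
theorem eq_zero_of_tlCoord (h2 : (2 : ResidueField O) ≠ 0) {c2 : R} (hc2 : 2 * c2 = 1)
    (δ : tangentDer h) {X : M2 R} {c : ResidueField O} (hc : c ≠ 0)
    (hX : ∀ i j, augment h (X i j) = if i = j then c else 0)
    (h0 : ∀ k, δ.1 (tlCoord c2 X k) = 0) (hdet : δ.1 X.det = 0) (i j : Fin 2) :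
    δ.1 (X i j) = 0 := by
  have h01 : δ.1 (X 0 1) = 0 := h0 1
  have h10 : δ.1 (X 1 0) = 0 := h0 2
  have hsub : ∀ a b, δ.1 (a - b) = δ.1 a - δ.1 b := fun a b => by
    have := δ.2.1 (a - b) b
    rw [sub_add_cancel] at this
    rw [this, add_sub_cancel_right]
  have hhalf : augment h c2 ≠ 0 := fun h0' => by
    have := congrArg (augment h) hc2
    rw [map_mul, h0', mul_zero, map_one] at this
    exact zero_ne_one this
  have hd1 : δ.1 c2 = 0 := by
    have h' := congrArg δ.1 hc2
    rw [δ.2.2.1, tangentDer_one, show (2 : R) = 1 + 1 from one_add_one_eq_two.symm, δ.2.1,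
      tangentDer_one, add_zero, mul_zero, add_zero, map_add, map_one,
      one_add_one_eq_two] at h'
    exact (mul_eq_zero.mp h').resolve_left h2
  have hdiag : δ.1 (X 0 0) - δ.1 (X 1 1) = 0 := by
    have h' : δ.1 (c2 * (X 0 0 - X 1 1)) = 0 := h0 0
    rw [δ.2.2.1, hd1, mul_zero, add_zero, hsub] at h'
    exact (mul_eq_zero.mp h').resolve_left hhalf
  have hsum : δ.1 (X 0 0) + δ.1 (X 1 1) = 0 := by
    rw [Matrix.det_fin_two, hsub, δ.2.2.1, δ.2.2.1, h01, h10, mul_zero, mul_zero, add_zero,
      sub_zero, hX 0 0, hX 1 1, if_pos rfl, if_pos rfl, ← mul_add] at hdet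
    rw [add_comm]
    exact (mul_eq_zero.mp hdet).resolve_left hc
  have h00 : δ.1 (X 0 0) = 0 := by
    have h' : (2 : ResidueField O) * δ.1 (X 0 0) = 0 := by linear_combination hdiag + hsum
    exact (mul_eq_zero.mp h').resolve_left h2
  have h11 : δ.1 (X 1 1) = 0 := by rw [h00, zero_add] at hsum; exact hsum
  fin_cases i <;> fin_cases j <;> assumption

/-- A cocycle with trivial action on inertia at `v`, zero at a chosen inertia element and at a
Frobenius, is zero on the decomposition group. -/
theorem eq_zero_on_decomposition {k : Type} [Field k] {p : ℕ} [Fact p.Prime] [CharP k p]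
    {r : Gal →* M2 k} (hr : GaloisFactorsThroughFiniteLevel r) {b : Gal → M2 k}
    (hb : IsAdCocycle r b) (hfin : IsFiniteLevel b) {v : ℕ} [Fact v.Prime] (hvp : v ≠ p)
    (hinert : ∀ g ∈ (padicPlace v).inertiaSubgroupIn ℚ, r g = 1)
    {σ : Gal} (hσ : σ ∈ (padicPlace v).inertiaSubgroupIn ℚ) {π : QBar} (hπ : π ≠ 0) {m : ℤ}
    (hπord : Mazur.Eisenstein.ordAt (padicPlace v) v π = m / p)
    (hπσ : EC.Reduction.res (padicPlace v) (σ π / π) ≠ 1)
    (hπσp : EC.Reduction.res (padicPlace v) (σ π / π) ^ p = 1) (hbσ : b σ = 0)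
    {F : Gal} (hF : (padicPlace v).IsFrobeniusAt F v) (hbF : b F = 0) {g : Gal}
    (hg : g ∈ (padicPlace v).decompositionSubgroup ℚ) : b g = 0 := by
  letI := ZMod.algebra k p
  have hI : ∀ g ∈ (padicPlace v).inertiaSubgroupIn ℚ, b g = 0 := by
    intro g hg
    refine (Module.forall_dual_apply_eq_zero_iff (ZMod p) (b g)).mp fun f => ?_
    have hA : (padicPlace v).LiesOverPrime v := CFT.Local.padicPlace_liesOverPrime v
    refine eq_zero_of_apply_eq_zero (Fact.out : p.Prime) hA (Fact.out : v.Prime) hvp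
      (fun g => f (b g)) (fun g hg g' _ => ?_) ?_ hσ hπ hπord hπσ hπσp
      (show f (b σ) = 0 by rw [hbσ, map_zero]) g hg
    · have hg' : r g⁻¹ = 1 := hinert _ (inv_mem hg)
      rw [hb, hinert g hg, hg', one_mul, mul_one, map_add, add_comm]
    · obtain ⟨L, hL, hL'⟩ := hfin
      exact ⟨L, hL, fun g hg => by rw [hL' g hg, map_zero]⟩
  have hone : b 1 = 0 := by
    have := hb 1 1
    rw [one_mul, inv_one, map_one, one_mul, mul_one, left_eq_add] at this
    exact this
  have hpow : ∀ i : ℕ, b (F ^ i) = 0 := fun i => by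
    induction i with
    | zero => rwa [pow_zero]
    | succ i ih => rw [pow_succ', hb, ih, hbF, mul_zero, zero_mul, add_zero]
  obtain ⟨L, hL, hLn, hL'⟩ := exists_common_level hr (Submodule.span k {b}) (fun b' hb' => by
    obtain ⟨c, rfl⟩ := Submodule.mem_span_singleton.mp hb'
    obtain ⟨L, hL, hL'⟩ := hfin
    exact ⟨L, hL, fun σ hσ => by rw [Pi.smul_apply, hL' σ hσ, smul_zero]⟩)
  obtain ⟨i, τ, hτ, hagree⟩ := CFT.Idele.exists_frobenius_mul_inertia L hF hg
  rw [hb.eq_of_agree (fun σ hσ => (hL' σ hσ).2 b (Submodule.mem_span_singleton_self b)) hagree,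
    hb, hI τ hτ, hpow, mul_zero, zero_mul, add_zero]

end Fermat.Agent.RT.Assembly
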